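/-
S55 / 51-P2-INST (helper70): reduction of the plug `Contract34.Reciprocity` (P3+P4) to the data of a
"class formation in the limit" `μ_p → J → C` over `Profin15.globalLevels S` — the same data that
`CDArith63.h3Van_of_formation` consumes for (P1) — together with local invariant maps on the
level-cohomological Brauer groups `Br q` of the FULL local Galois groups.

No arithmetic in this file: Mathlib + Profin15 + CDArith63 (explicit cochains, cross-ring
functoriality) only.
-/
import Fermat.Agent.S55.Profin15.Contract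
import Fermat.Agent.S55.CDArith63.Formation

set_option autoImplicit false
set_option linter.style.haveILetI false
set_option linter.unusedSectionVars false

open CategoryTheory groupCohomology ExtCitation
open Fermat.Agent.S55.Profin15 Fermat.Agent.S55.CDArith63
open Fermat.Agent.Lib.FrobeniusExists (Qb GQ)
open Fermat.Agent.S55.Contract34

namespace Fermat.Agent.S55.Recip70

/-- local instance: the primes of `Nat.Primes` are prime (same term as in the Prelude) -/
local instance factPrimes (q : Nat.Primes) : Fact (q : ℕ).Prime := ⟨q.2⟩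

/-! ### Bridge between `Profin15` level cocycles and the explicit cochains of `CDArith63` -/

section Bridge

universe u

variable {k G : Type u} [CommRing k] [Group G] (𝒰 : LevelStr G) (M : Rep.{u} k G)

theorem d23_eq_zero_iff (c : G × G → M) :
    d23 M.ρ c = 0 ↔ c ∈ cocycles₂ M := by
  rw [mem_cocycles₂_iff]
  constructor
  · intro h g h' j
    have := congrFun h (g, h', j)
    simp only [d23_apply, Pi.zero_apply] at this
    have h2 : M.ρ g (c (h', j)) + c (g, h' * j) = c (g * h', j) + c (g, h') := by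
      have : M.ρ g (c (h', j)) + c (g, h' * j) - (c (g * h', j) + c (g, h')) = 0 := by
        rw [← this]; abel
      exact sub_eq_zero.1 this
    exact h2.symm
  · intro h
    funext ⟨g, h', j⟩
    simp only [d23_apply, Pi.zero_apply]
    have := h g h' j
    have h2 : M.ρ g (c (h', j)) + c (g, h' * j) - (c (g * h', j) + c (g, h')) = 0 :=
      sub_eq_zero.2 this.symm
    rw [← h2]; abel

theorem mem_Z2_iff_mem_Z₂ (c : G × G → M) : c ∈ Z2 𝒰 M.ρ ↔ c ∈ 𝒰.Z₂ M := by
  rw [LevelStr.mem_Z₂_iff, mem_Z2_iff, d23_eq_zero_iff, and_comm]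

theorem d12_eq (a : G → M) : d12 M.ρ a = (d₁₂ M).hom a := by
  funext ⟨g, h⟩
  simp only [d12_apply, d₁₂_hom_apply]

theorem mem_B2_iff_mem_B₂ (c : G × G → M) : c ∈ B2 𝒰 M.ρ ↔ c ∈ 𝒰.B₂ M := by
  rw [LevelStr.mem_B₂_iff, mem_B2_iff]
  constructor
  · rintro ⟨a, ha, rfl⟩
    exact ⟨a, ha, (d12_eq M a).symm⟩
  · rintro ⟨a, ha, rfl⟩
    exact ⟨a, ha, d12_eq M a⟩

/-- push-forward of level cocycles along an additive equivariant map into a representation over
a possibly different coefficient ring -/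
def pushZ2 {k' : Type*} [CommRing k'] {B : Type*} [AddCommGroup B] [Module k' B]
    (ρB : Representation k' G B) (φ : M →+ B) (hφ : ∀ g a, φ (M.ρ g a) = ρB g (φ a)) :
    ↥(𝒰.Z₂ M) →+ ↥(Z2 𝒰 ρB) where
  toFun c := ⟨φ ∘ (c : G × G → M),
    comp_mem_Z2 M.ρ ρB φ hφ ((mem_Z2_iff_mem_Z₂ 𝒰 M _).2 c.2)⟩
  map_zero' := by
    apply Subtype.ext
    funext x
    simp
  map_add' c c' := by
    apply Subtype.ext
    funext x
    simp

@[simp] theorem coe_pushZ2 {k' : Type*} [CommRing k'] {B : Type*} [AddCommGroup B] [Module k' B]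
    (ρB : Representation k' G B) (φ : M →+ B) (hφ : ∀ g a, φ (M.ρ g a) = ρB g (φ a))
    (c : ↥(𝒰.Z₂ M)) :
    ((pushZ2 𝒰 M ρB φ hφ c : ↥(Z2 𝒰 ρB)) : G × G → B) = φ ∘ (c : G × G → M) := rfl

/-- push-forward on level `H²`, from `Profin15`'s `H2` of a `Rep` to `CDArith63`'s `H2` of a bare
representation (different coefficient rings allowed) -/
def pushH2 {k' : Type*} [CommRing k'] {B : Type*} [AddCommGroup B] [Module k' B]
    (ρB : Representation k' G B) (φ : M →+ B) (hφ : ∀ g a, φ (M.ρ g a) = ρB g (φ a)) :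
    𝒰.H2 M →+ H2 𝒰 ρB :=
  QuotientAddGroup.lift ((𝒰.B₂ M).comap (𝒰.Z₂ M).subtype).toAddSubgroup
    ((H2mk 𝒰 ρB).comp (pushZ2 𝒰 M ρB φ hφ)) (by
      intro c hc
      have hc' : (c : G × G → M) ∈ 𝒰.B₂ M := hc
      rw [AddMonoidHom.mem_ker, AddMonoidHom.comp_apply, H2mk_eq_zero_iff, coe_pushZ2]
      exact comp_mem_B2 M.ρ ρB φ hφ ((mem_B2_iff_mem_B₂ 𝒰 M _).2 hc'))

theorem pushH2_H2π {k' : Type*} [CommRing k'] {B : Type*} [AddCommGroup B] [Module k' B]
    (ρB : Representation k' G B) (φ : M →+ B) (hφ : ∀ g a, φ (M.ρ g a) = ρB g (φ a))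
    (c : ↥(𝒰.Z₂ M)) :
    pushH2 𝒰 M ρB φ hφ (𝒰.H2π M c) = H2mk 𝒰 ρB (pushZ2 𝒰 M ρB φ hφ c) := rfl

end Bridge

/-! ### The local Brauer groups in level cohomology -/

section Local

/-- the FULL local level structure at `q` (the one of the Prelude's
`continuousH2 (primeLocalToGlobal q)`) -/
noncomputable abbrev locLevels (q : Nat.Primes) : LevelStr (primeLocalGaloisGroup q) :=
  pullLevels (primeLocalToGlobal q)

/-- `(PadicAlgCl q)ˣ` as a representation over `ℤ` of the local Galois group at `q` -/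
noncomputable def omRep (q : Nat.Primes) :
    Representation ℤ (primeLocalGaloisGroup q) (Additive (PadicAlgCl (q : ℕ))ˣ) :=
  Representation.ofMulDistribMulAction
    (PadicAlgCl (q : ℕ) ≃ₐ[ℚ_[(q : ℕ)]] PadicAlgCl (q : ℕ)) (PadicAlgCl (q : ℕ))ˣ

theorem omRep_apply (q : Nat.Primes) (τ : primeLocalGaloisGroup q)
    (u : Additive (PadicAlgCl (q : ℕ))ˣ) :
    omRep q τ u = Additive.ofMul
      ((show PadicAlgCl (q : ℕ) ≃ₐ[ℚ_[(q : ℕ)]] PadicAlgCl (q : ℕ) from τ) • Additive.toMul u) :=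
  rfl

/-- the level-cohomological Brauer group of `ℚ_q` -/
abbrev Br (q : Nat.Primes) : Type := H2 (locLevels q) (omRep q)

end Local

/-! ### The reduction -/

section Main

variable {p : ℕ} [Fact p.Prime] {S : Finset Nat.Primes}

/-- every element of a `ZMod p`-module is killed by `p` -/
theorem nsmul_eq_zero_of_zmod {X : Type*} [AddCommGroup X] [Module (ZMod p) X] (x : X) :
    p • x = 0 := by
  have h : ((p : ZMod p)) • x = 0 := by rw [ZMod.natCast_self, zero_smul]
  rwa [Nat.cast_smul_eq_nsmul] at h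

/-- **51-P2-INST, abstract reduction.**  Reciprocity (P3+P4, level form) from a complex
`μ_p → J → C` of `G_ℚ`-modules, a functional `invC` on `H²(C)`, localisations `EV q : H²(J) → Br q`
at the FULL local groups and local invariants `inv q` with `invC ∘ π_* = ∑_q inv q ∘ EV q`. -/
theorem reciprocityL_of_formation
    {J C T : Type} [AddCommGroup J] [AddCommGroup C] [AddCommGroup T]
    (ρJ : Representation ℤ GQ J) (ρC : Representation ℤ GQ C)
    (j : (mu p) →+ J) (hjρ : ∀ (g : GQ) (a : mu p), j ((mu p).ρ g a) = ρJ g (j a))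
    (π : J →+ C) (hπρ : ∀ g x, π (ρJ g x) = ρC g (π x)) (hπj : ∀ a, π (j a) = 0)
    (invC : H2 (globalLevels S) ρC →+ T)
    (jq : ∀ q : ↥S, (Rep.res (primeLocalToGlobal q.1) (mu p)) →+ Additive (PadicAlgCl (q.1 : ℕ))ˣ)
    (hjq : ∀ (q : ↥S) (τ : primeLocalGaloisGroup q.1)
      (a : Rep.res (primeLocalToGlobal q.1) (mu p)),
      jq q ((Rep.res (primeLocalToGlobal q.1) (mu p)).ρ τ a) = omRep q.1 τ (jq q a))
    (EV : ∀ q : ↥S, H2 (globalLevels S) ρJ →+ Br q.1)
    (inv : ∀ q : ↥S, Br q.1 →+ T)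
    (hcompat : ∀ x : H2 (globalLevels S) ρJ,
      invC (mapH2 (globalLevels S) ρJ ρC π hπρ x) = ∑ q : ↥S, inv q (EV q x))
    (hEV : ∀ (q : ↥S) (x : (globalLevels S).H2 (mu p)),
      EV q (pushH2 (globalLevels S) (mu p) ρJ j hjρ x) =
        pushH2 (locLevels q.1) (Rep.res (primeLocalToGlobal q.1) (mu p)) (omRep q.1) (jq q) (hjq q)
          (Plug.locq p S q.1 (mu p) x))
    (jT : ZMod p →+ T) (hjT : Function.Injective jT)
    (hT : ∀ t : T, p • t = 0 → t ∈ Set.range jT)
    (hne : ∀ q : ↥S, ∃ y : (locLevels q.1).H2 (Rep.res (primeLocalToGlobal q.1) (mu p)),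
      inv q (pushH2 (locLevels q.1) (Rep.res (primeLocalToGlobal q.1) (mu p)) (omRep q.1)
        (jq q) (hjq q) y) ≠ 0) :
    Plug.ReciprocityL p S := by
  classical
  -- the `T`-valued local functionals
  let K : ∀ q : ↥S, (locLevels q.1).H2 (Rep.res (primeLocalToGlobal q.1) (mu p)) →+ T :=
    fun q => (inv q).comp (pushH2 (locLevels q.1) (Rep.res (primeLocalToGlobal q.1) (mu p))
      (omRep q.1) (jq q) (hjq q))
  have hKr : ∀ q y, K q y ∈ jT.range := by
    intro q y
    apply hT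
    rw [← map_nsmul, nsmul_eq_zero_of_zmod (p := p) y, map_zero]
  let e : ZMod p ≃+ jT.range := AddMonoidHom.ofInjective hjT
  let lam0 : ∀ q : ↥S, (locLevels q.1).H2 (Rep.res (primeLocalToGlobal q.1) (mu p)) →+ ZMod p :=
    fun q => e.symm.toAddMonoidHom.comp ((K q).codRestrict jT.range (hKr q))
  have hlam0 : ∀ q y, jT (lam0 q y) = K q y := by
    intro q y
    have h1 : (e (e.symm ⟨K q y, hKr q y⟩) : T) = K q y := by rw [e.apply_symm_apply]
    exact h1
  refine ⟨fun q => (lam0 q).toZModLinearMap p, fun q h0 => ?_, fun x => ?_⟩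
  · obtain ⟨y, hy⟩ := hne q
    apply hy
    have h1 : lam0 q y = 0 := by
      have := LinearMap.congr_fun h0 y
      simpa using this
    have h2 := hlam0 q y
    rw [h1, map_zero] at h2
    exact h2.symm
  · apply hjT
    rw [map_sum, map_zero]
    have h1 : ∀ q : ↥S, jT (((lam0 q).toZModLinearMap p) (Plug.locq p S q.1 (mu p) x)) =
        inv q (EV q (pushH2 (globalLevels S) (mu p) ρJ j hjρ x)) := by
      intro q
      rw [hEV]
      exact hlam0 q _
    rw [Finset.sum_congr rfl fun q _ => h1 q, ← hcompat]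
    obtain ⟨c, rfl⟩ := Submodule.Quotient.mk_surjective _ x
    have h2 : mapH2 (globalLevels S) ρJ ρC π hπρ
        (pushH2 (globalLevels S) (mu p) ρJ j hjρ ((globalLevels S).H2π (mu p) c)) = 0 := by
      rw [pushH2_H2π, mapH2_mk]
      have : mapZ2 (globalLevels S) ρJ ρC π hπρ (pushZ2 (globalLevels S) (mu p) ρJ j hjρ c) = 0 := by
        apply Subtype.ext
        funext y
        simp [hπj]
      rw [this, map_zero]
    change invC (mapH2 (globalLevels S) ρJ ρC π hπρ
      (pushH2 (globalLevels S) (mu p) ρJ j hjρ ((globalLevels S).H2π (mu p) c))) = 0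
    rw [h2, map_zero]

/-- the same in the literal `Contract34` form -/
theorem reciprocity_of_formation
    {J C T : Type} [AddCommGroup J] [AddCommGroup C] [AddCommGroup T]
    (ρJ : Representation ℤ GQ J) (ρC : Representation ℤ GQ C)
    (j : (mu p) →+ J) (hjρ : ∀ (g : GQ) (a : mu p), j ((mu p).ρ g a) = ρJ g (j a))
    (π : J →+ C) (hπρ : ∀ g x, π (ρJ g x) = ρC g (π x)) (hπj : ∀ a, π (j a) = 0)
    (invC : H2 (globalLevels S) ρC →+ T)
    (jq : ∀ q : ↥S, (Rep.res (primeLocalToGlobal q.1) (mu p)) →+ Additive (PadicAlgCl (q.1 : ℕ))ˣ)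
    (hjq : ∀ (q : ↥S) (τ : primeLocalGaloisGroup q.1)
      (a : Rep.res (primeLocalToGlobal q.1) (mu p)),
      jq q ((Rep.res (primeLocalToGlobal q.1) (mu p)).ρ τ a) = omRep q.1 τ (jq q a))
    (EV : ∀ q : ↥S, H2 (globalLevels S) ρJ →+ Br q.1)
    (inv : ∀ q : ↥S, Br q.1 →+ T)
    (hcompat : ∀ x : H2 (globalLevels S) ρJ,
      invC (mapH2 (globalLevels S) ρJ ρC π hπρ x) = ∑ q : ↥S, inv q (EV q x))
    (hEV : ∀ (q : ↥S) (x : (globalLevels S).H2 (mu p)),
      EV q (pushH2 (globalLevels S) (mu p) ρJ j hjρ x) =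
        pushH2 (locLevels q.1) (Rep.res (primeLocalToGlobal q.1) (mu p)) (omRep q.1) (jq q) (hjq q)
          (Plug.locq p S q.1 (mu p) x))
    (jT : ZMod p →+ T) (hjT : Function.Injective jT)
    (hT : ∀ t : T, p • t = 0 → t ∈ Set.range jT)
    (hne : ∀ q : ↥S, ∃ y : (locLevels q.1).H2 (Rep.res (primeLocalToGlobal q.1) (mu p)),
      inv q (pushH2 (locLevels q.1) (Rep.res (primeLocalToGlobal q.1) (mu p)) (omRep q.1)
        (jq q) (hjq q) y) ≠ 0) :
    Reciprocity p S :=
  (Plug.reciprocity_iff p S).2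
    (reciprocityL_of_formation ρJ ρC j hjρ π hπρ hπj invC jq hjq EV inv hcompat hEV jT hjT hT hne)

end Main

end Fermat.Agent.S55.Recip70
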