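/-
S55 / P3P4 (K1) (helper69, second seat of helper70's 51-P2-INST): the LOCAL Kummer step.

* `mapH2_surjective_torsion`, `pushH2_surjective_torsion` : abstract root extraction on explicit
  level cochains: if `E` is smooth and `p`-divisible and `E[p] = j(A)` then every `p`-torsion class
  of level `H²(E)` comes from level `H²(A)`;
* `om_isSmooth q` : `(PadicAlgCl q)ˣ` is smooth for the full local level structure (Krasner);
* `jq q ζ hζ : 𝔽_p(1) → (PadicAlgCl q)ˣ`, `a ↦ ι_q(ζ)^a`, equivariant, injective, onto the `p`-torsion;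
* `kummerLoc q ζ hζ : H²(G_q, μ_p) → Br q` and `kummerLoc_surjective_torsion`.
-/
import Fermat.Agent.S55.Recip70.Reduce
import Fermat.Agent.S55.Krasner81

set_option autoImplicit false
set_option linter.style.haveILetI false
set_option linter.unusedSectionVars false

open CategoryTheory groupCohomology ExtCitation
open Fermat.Agent.S55.Profin15 Fermat.Agent.S55.CDArith63
open Fermat.Agent.Lib.FrobeniusExists (Qb GQ)
open Fermat.Agent.S55.Contract34

namespace Fermat.Agent.S55.Recip70.Kummer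

attribute [local instance] factPrimes

/-! ### abstract root extraction -/

section Abstract

universe u

variable {G : Type u} [Group G] {𝒰 : LevelStr G}

/-- **Kummer step in degree 2** (explicit level cochains): `E` smooth, `p`-divisible,
`E[p] = j(A)`, `j` injective and equivariant. Then every `p`-torsion class of level `H²(E)` is the
image of a class of level `H²(A)`. -/
theorem mapH2_surjective_torsion (p : ℕ) {k : Type*} [CommRing k]
    {E : Type*} [AddCommGroup E] (ρE : Representation ℤ G E) (hsm : IsSmoothRep 𝒰 ρE)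
    {A : Type*} [AddCommGroup A] [Module k A] (ρA : Representation k G A)
    (j : A →+ E) (hj : Function.Injective j) (hjρ : ∀ g a, j (ρA g a) = ρE g (j a))
    (hjp : ∀ e : E, p • e = 0 → e ∈ Set.range j)
    (hdiv : ∀ e : E, ∃ e', p • e' = e)
    (z : H2 𝒰 ρE) (hz : p • z = 0) : ∃ b : H2 𝒰 ρA, mapH2 𝒰 ρA ρE j hjρ b = z := by
  obtain ⟨c, rfl⟩ := H2mk_surjective z
  have h0 : H2mk 𝒰 ρE (p • c) = 0 := by rw [map_nsmul, hz]
  obtain ⟨a, ha, hda⟩ := (H2mk_eq_zero_iff _).1 h0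
  have hda' : d12 ρE a = p • (c : G × G → E) := by
    rw [hda]; rfl
  -- a level `p`-th root of `a`
  let root : E → E := fun e => (hdiv e).choose
  have hroot : ∀ e, p • root e = e := fun e => (hdiv e).choose_spec
  have ha' : 𝒰.IsConst₁ (root ∘ a) := ha.comp root
  have hpa' : p • (root ∘ a) = a := by
    funext g
    simp only [Pi.smul_apply, Function.comp_apply, hroot]
  -- the corrected cocycle
  set c'' : G × G → E := (c : G × G → E) - d12 ρE (root ∘ a) with hc''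
  have hc''c : 𝒰.IsConst₂ c'' := isConst₂_sub c.2.1 (hsm.isConst₂_d12 ha')
  have hpc'' : ∀ x, p • c'' x = 0 := by
    intro x
    have h1 : p • c'' = p • (c : G × G → E) - d12 ρE (p • (root ∘ a)) := by
      rw [hc'', smul_sub, d12_nsmul]
    have h2 : p • c'' = 0 := by
      rw [h1, hpa', hda', sub_self]
    have := congrFun h2 x
    simpa using this
  obtain ⟨bA, hbA, hjbA⟩ := exists_pull₂ (i := (j : A → E)) hc''c (fun x => hjp _ (hpc'' x))
  have hdbA : d23 ρA bA = 0 := by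
    have hkey : j ∘ d23 ρA bA = 0 := by
      rw [map_d23 ρA ρE j hjρ bA, hjbA, hc'', d23_sub, d23_d12, c.2.2, sub_zero]
    funext x
    apply hj
    have := congrFun hkey x
    simpa using this
  refine ⟨H2mk 𝒰 ρA ⟨bA, hbA, hdbA⟩, ?_⟩
  rw [mapH2_mk, ← sub_eq_zero, ← map_sub, H2mk_eq_zero_iff]
  refine ⟨-(root ∘ a), ha'.comp (fun x => -x), ?_⟩
  rw [d12_neg]
  show - d12 ρE (root ∘ a) = (j ∘ bA) - (c : G × G → E)
  rw [hjbA, hc'']
  abel

/-- the same for `Recip70.pushH2` (source = `Profin15` level `H²` of a `Rep`). -/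
theorem pushH2_surjective_torsion (p : ℕ) {k : Type u} [CommRing k] (M : Rep.{u} k G)
    {E : Type*} [AddCommGroup E] (ρE : Representation ℤ G E) (hsm : IsSmoothRep 𝒰 ρE)
    (j : M →+ E) (hj : Function.Injective j) (hjρ : ∀ g a, j (M.ρ g a) = ρE g (j a))
    (hjp : ∀ e : E, p • e = 0 → e ∈ Set.range j)
    (hdiv : ∀ e : E, ∃ e', p • e' = e)
    (z : H2 𝒰 ρE) (hz : p • z = 0) : ∃ y : 𝒰.H2 M, pushH2 𝒰 M ρE j hjρ y = z := by
  obtain ⟨b, hb⟩ := mapH2_surjective_torsion p ρE hsm M.ρ j hj hjρ hjp hdiv z hz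
  obtain ⟨c, rfl⟩ := H2mk_surjective b
  refine ⟨𝒰.H2π M ⟨(c : G × G → M), (mem_Z2_iff_mem_Z₂ 𝒰 M _).1 c.2⟩, ?_⟩
  rw [pushH2_H2π, ← hb, mapH2_mk]
  rfl

end Abstract

/-! ### the local instance: `Ωˣ = (PadicAlgCl q)ˣ` -/

section Local

open scoped IntermediateField

variable (q : Nat.Primes)

/-- every element of `PadicAlgCl q` is fixed by some level of the full local level structure
(Krasner cofinality, `Krasner81.exists_level`). -/
theorem exists_locLevel_fixing (x : PadicAlgCl (q : ℕ)) :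
    ∃ V ∈ (locLevels q).levels, ∀ s ∈ V,
      (show PadicAlgCl (q : ℕ) ≃ₐ[ℚ_[(q : ℕ)]] PadicAlgCl (q : ℕ) from s) x = x := by
  have hint : IsIntegral ℚ_[(q : ℕ)] x := (PadicAlgCl.isAlgebraic (q : ℕ)).isIntegral.1 x
  haveI : FiniteDimensional ℚ_[(q : ℕ)] ℚ_[(q : ℕ)]⟮x⟯ :=
    IntermediateField.adjoin.finiteDimensional hint
  obtain ⟨F, hF, hFL⟩ := Krasner81.exists_level (q : ℕ) ℚ_[(q : ℕ)]⟮x⟯
  haveI := hF
  obtain ⟨U, hU, hle⟩ := exists_allLevel_le F
  refine ⟨U.comap (primeLocalToGlobal q), ⟨U, hU, rfl⟩, fun s hs => ?_⟩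
  have h1 : (show PadicAlgCl (q : ℕ) ≃ₐ[ℚ_[(q : ℕ)]] PadicAlgCl (q : ℕ) from s) ∈
      (ℚ_[(q : ℕ)]⟮x⟯).fixingSubgroup := hFL s (hle hs)
  exact (IntermediateField.mem_fixingSubgroup_iff _ _).1 h1 x
    (IntermediateField.mem_adjoin_simple_self _ x)

/-- **smoothness** of `(PadicAlgCl q)ˣ` for the full local level structure -/
theorem om_isSmooth : IsSmoothRep (locLevels q) (omRep q) := by
  intro u
  obtain ⟨V, hV, h⟩ := exists_locLevel_fixing q
    ((Additive.toMul u : (PadicAlgCl (q : ℕ))ˣ) : PadicAlgCl (q : ℕ))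
  refine ⟨V, hV, fun s hs => ?_⟩
  rw [omRep_apply]
  refine congrArg Additive.ofMul (Units.ext ?_)
  exact h s hs

/-- `(PadicAlgCl q)ˣ` is divisible -/
theorem om_divisible (n : ℕ) (hn : n ≠ 0) (e : Additive (PadicAlgCl (q : ℕ))ˣ) :
    ∃ e' : Additive (PadicAlgCl (q : ℕ))ˣ, n • e' = e := by
  obtain ⟨y, hy⟩ := IsAlgClosed.exists_pow_nat_eq
    ((Additive.toMul e : (PadicAlgCl (q : ℕ))ˣ) : PadicAlgCl (q : ℕ)) (Nat.pos_of_ne_zero hn)
  have hy0 : y ≠ 0 := by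
    rintro rfl
    rw [zero_pow hn] at hy
    exact (Units.ne_zero (Additive.toMul e)) hy.symm
  refine ⟨Additive.ofMul (Units.mk0 y hy0), ?_⟩
  rw [← ofMul_pow]
  refine congrArg Additive.ofMul (Units.ext ?_)
  rw [Units.val_pow_eq_pow_val, Units.val_mk0, hy]
  rfl

variable {p : ℕ} [Fact p.Prime]

/-- the image of `ζ` in `(PadicAlgCl q)ˣ` -/
noncomputable def zetaLoc (ζ : Qbˣ) : (PadicAlgCl (q : ℕ))ˣ :=
  Units.map ((padicEmbedding (q : ℕ) : Qb →ₐ[ℚ] PadicAlgCl (q : ℕ)) : Qb →* PadicAlgCl (q : ℕ)) ζ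

theorem coe_zetaLoc (ζ : Qbˣ) :
    ((zetaLoc q ζ : (PadicAlgCl (q : ℕ))ˣ) : PadicAlgCl (q : ℕ)) = padicEmbedding (q : ℕ) (ζ : Qb) :=
  rfl

theorem zetaLoc_pow (ζ : Qbˣ) (n : ℕ) : zetaLoc q (ζ ^ n) = zetaLoc q ζ ^ n := map_pow _ _ _

theorem zetaLoc_one : zetaLoc q 1 = 1 := map_one _

theorem zetaLoc_injective : Function.Injective (zetaLoc q) := by
  intro a b h
  apply Units.ext
  apply (padicEmbedding (q : ℕ)).injective
  exact congrArg (fun u : (PadicAlgCl (q : ℕ))ˣ => (u : PadicAlgCl (q : ℕ))) h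

/-- `a ↦ ι_q(ζ)^a`, `ZMod p →+ (PadicAlgCl q)ˣ` -/
noncomputable def jq0 (ζ : Qbˣ) (hζ : ζ ^ p = 1) : ZMod p →+ Additive (PadicAlgCl (q : ℕ))ˣ :=
  ZMod.lift p ⟨zmultiplesHom (Additive (PadicAlgCl (q : ℕ))ˣ) (Additive.ofMul (zetaLoc q ζ)), by
    show (p : ℤ) • Additive.ofMul (zetaLoc q ζ) = 0
    rw [natCast_zsmul, ← ofMul_pow, ← zetaLoc_pow, hζ, zetaLoc_one, ofMul_one]⟩

theorem jq0_natCast (ζ : Qbˣ) (hζ : ζ ^ p = 1) (n : ℕ) :
    jq0 q ζ hζ (n : ZMod p) = Additive.ofMul (zetaLoc q ζ ^ n) := by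
  have h := ZMod.lift_coe p (⟨zmultiplesHom (Additive (PadicAlgCl (q : ℕ))ˣ)
    (Additive.ofMul (zetaLoc q ζ)), by
      show (p : ℤ) • Additive.ofMul (zetaLoc q ζ) = 0
      rw [natCast_zsmul, ← ofMul_pow, ← zetaLoc_pow, hζ, zetaLoc_one, ofMul_one]⟩ : {f : ℤ →+ Additive (PadicAlgCl (q : ℕ))ˣ // f p = 0}) (n : ℤ)
  rw [Int.cast_natCast] at h
  rw [jq0, h]
  show ((n : ℕ) : ℤ) • Additive.ofMul (zetaLoc q ζ) = _
  rw [natCast_zsmul]
  rfl

/-- **equivariance**: `τ (ι_q ζ ^ a) = ι_q ζ ^ (χ(r_q τ) a)`, `χ = cycloChar p` (Prelude). -/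
theorem jq0_equivariant (ζ : Qbˣ) (hζ : ζ ^ p = 1) (τ : primeLocalGaloisGroup q) (a : ZMod p) :
    jq0 q ζ hζ (((cycloChar p (primeLocalToGlobal q τ) : (ZMod p)ˣ) : ZMod p) * a) =
      omRep q τ (jq0 q ζ hζ a) := by
  haveI : NeZero p := ⟨(Fact.out : p.Prime).ne_zero⟩
  obtain ⟨n, rfl⟩ : ∃ n : ℕ, (n : ZMod p) = a := ⟨a.val, ZMod.natCast_zmod_val a⟩
  set σ : GQ := primeLocalToGlobal q τ with hσ
  have hspec : (σ : Qb ≃+* Qb) (ζ : Qb) =
      (ζ : Qb) ^ ((cycloChar p σ : (ZMod p)ˣ) : ZMod p).val :=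
    modularCyclotomicCharacter.spec (L := Qb) (card_rootsOfUnity_eq_self p) (σ : Qb ≃+* Qb)
      ((mem_rootsOfUnity _ _).2 hζ)
  have h1 : (((cycloChar p σ : (ZMod p)ˣ) : ZMod p) * (n : ZMod p)) =
      ((((cycloChar p σ : (ZMod p)ˣ) : ZMod p).val * n : ℕ) : ZMod p) := by
    rw [Nat.cast_mul, ZMod.natCast_zmod_val]
  rw [h1, jq0_natCast, jq0_natCast, omRep_apply]
  refine congrArg Additive.ofMul (Units.ext ?_)
  show ((zetaLoc q ζ : (PadicAlgCl (q : ℕ))ˣ) : PadicAlgCl (q : ℕ)) ^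
      (((cycloChar p σ : (ZMod p)ˣ) : ZMod p).val * n) =
    (show PadicAlgCl (q : ℕ) ≃ₐ[ℚ_[(q : ℕ)]] PadicAlgCl (q : ℕ) from τ)
      (((zetaLoc q ζ : (PadicAlgCl (q : ℕ))ˣ) : PadicAlgCl (q : ℕ)) ^ n)
  rw [map_pow, pow_mul, coe_zetaLoc]
  congr 1
  have h2 := padicEmbedding_localGaloisToGlobal (q : ℕ)
    (show PadicAlgCl (q : ℕ) ≃ₐ[ℚ_[(q : ℕ)]] PadicAlgCl (q : ℕ) from τ) (ζ : Qb)
  rw [← h2, ← map_pow]
  exact congrArg (padicEmbedding (q : ℕ)) hspec.symm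

theorem jq0_injective {ζ : Qbˣ} (hζ : IsPrimitiveRoot ζ p) :
    Function.Injective (jq0 q ζ hζ.pow_eq_one) := by
  haveI : NeZero p := ⟨(Fact.out : p.Prime).ne_zero⟩
  rw [injective_iff_map_eq_zero]
  intro a ha
  obtain ⟨n, rfl⟩ : ∃ n : ℕ, (n : ZMod p) = a := ⟨a.val, ZMod.natCast_zmod_val a⟩
  rw [jq0_natCast, ← zetaLoc_pow] at ha
  have h1 : zetaLoc q (ζ ^ n) = zetaLoc q 1 := by
    rw [zetaLoc_one]
    exact congrArg Additive.toMul ha
  exact (ZMod.natCast_eq_zero_iff n p).2 ((hζ.pow_eq_one_iff_dvd n).1 (zetaLoc_injective q h1))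

/-- the `p`-torsion of `(PadicAlgCl q)ˣ` is `ι_q(ζ)^ℤ` -/
theorem mem_range_jq0 {ζ : Qbˣ} (hζ : IsPrimitiveRoot ζ p) (e : Additive (PadicAlgCl (q : ℕ))ˣ)
    (he : p • e = 0) : e ∈ Set.range (jq0 q ζ hζ.pow_eq_one) := by
  haveI : NeZero p := ⟨(Fact.out : p.Prime).ne_zero⟩
  have hprim : IsPrimitiveRoot (zetaLoc q ζ) p := hζ.map_of_injective (zetaLoc_injective q)
  have hu : (Additive.toMul e : (PadicAlgCl (q : ℕ))ˣ) ^ p = 1 := congrArg Additive.toMul he
  obtain ⟨n, -, hn⟩ := hprim.eq_pow_of_mem_rootsOfUnity ((mem_rootsOfUnity _ _).2 hu)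
  refine ⟨(n : ZMod p), ?_⟩
  rw [jq0_natCast, hn]
  rfl

/-- `jq` with the source spelled as the carrier of `Rep.res (primeLocalToGlobal q) (mu p)`
(the binder of `Recip70.reciprocity_of_formation`). -/
noncomputable def jq (ζ : Qbˣ) (hζ : ζ ^ p = 1) :
    (Rep.res (primeLocalToGlobal q) (mu p)) →+ Additive (PadicAlgCl (q : ℕ))ˣ :=
  jq0 q ζ hζ

theorem jq_apply (ζ : Qbˣ) (hζ : ζ ^ p = 1) (a : ZMod p) : jq q ζ hζ a = jq0 q ζ hζ a := rfl

/-- the hypothesis `hjq` of `Recip70.reciprocity_of_formation` -/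
theorem jq_equivariant (ζ : Qbˣ) (hζ : ζ ^ p = 1) (τ : primeLocalGaloisGroup q)
    (a : Rep.res (primeLocalToGlobal q) (mu p)) :
    jq q ζ hζ ((Rep.res (primeLocalToGlobal q) (mu p)).ρ τ a) = omRep q τ (jq q ζ hζ a) :=
  jq0_equivariant q ζ hζ τ a

theorem jq_injective {ζ : Qbˣ} (hζ : IsPrimitiveRoot ζ p) :
    Function.Injective (jq q ζ hζ.pow_eq_one) := jq0_injective q hζ

theorem mem_range_jq {ζ : Qbˣ} (hζ : IsPrimitiveRoot ζ p) (e : Additive (PadicAlgCl (q : ℕ))ˣ)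
    (he : p • e = 0) : e ∈ Set.range (jq q ζ hζ.pow_eq_one) := mem_range_jq0 q hζ e he

/-- ANY injective additive map `𝔽_p → (PadicAlgCl q)ˣ` is onto the `p`-torsion. -/
theorem mem_range_of_injective
    (φ : (Rep.res (primeLocalToGlobal q) (mu p)) →+ Additive (PadicAlgCl (q : ℕ))ˣ)
    (hφ : Function.Injective φ) (e : Additive (PadicAlgCl (q : ℕ))ˣ) (he : p • e = 0) :
    e ∈ Set.range φ := by
  haveI : NeZero p := ⟨(Fact.out : p.Prime).ne_zero⟩
  haveI : Fact (1 < p) := ⟨(Fact.out : p.Prime).one_lt⟩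
  set u : (PadicAlgCl (q : ℕ))ˣ := Additive.toMul (φ (1 : ZMod p)) with hu
  have hup : u ^ p = 1 := by
    have h1 : p • φ (1 : ZMod p) = 0 := by
      rw [← map_nsmul]
      have : p • (1 : ZMod p) = 0 := by rw [nsmul_eq_mul, ZMod.natCast_self, zero_mul]
      exact (congrArg φ this).trans (map_zero φ)
    exact congrArg Additive.toMul h1
  have hu1 : u ≠ 1 := by
    intro h
    have h2 : φ (1 : ZMod p) = φ 0 := by
      rw [map_zero]
      exact congrArg Additive.ofMul h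
    exact one_ne_zero (hφ h2)
  have hprim : IsPrimitiveRoot u p :=
    IsPrimitiveRoot.iff_orderOf.2 (orderOf_eq_prime hup hu1)
  have he' : (Additive.toMul e : (PadicAlgCl (q : ℕ))ˣ) ^ p = 1 := congrArg Additive.toMul he
  obtain ⟨n, -, hn⟩ := hprim.eq_pow_of_mem_rootsOfUnity ((mem_rootsOfUnity _ _).2 he')
  refine ⟨((n : ZMod p) : ZMod p), ?_⟩
  have h3 : φ ((n : ZMod p)) = n • φ (1 : ZMod p) := by
    rw [← map_nsmul]
    congr 1
    rw [nsmul_eq_mul, mul_one]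
  rw [h3]
  exact congrArg Additive.ofMul hn

/-- **(K1), general form**: for ANY injective equivariant `φ : 𝔽_p(1) → (PadicAlgCl q)ˣ`, every
`p`-torsion class of `Br q` is the push-forward of a class of level `H²(G_q, μ_p)`.
(This is the hypothesis `hsurj` of `Recip70.hne_of_torsion`.) -/
theorem pushH2_surjective_torsion_of_injective
    (φ : (Rep.res (primeLocalToGlobal q) (mu p)) →+ Additive (PadicAlgCl (q : ℕ))ˣ)
    (hφρ : ∀ (τ : primeLocalGaloisGroup q) (a : Rep.res (primeLocalToGlobal q) (mu p)),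
      φ ((Rep.res (primeLocalToGlobal q) (mu p)).ρ τ a) = omRep q τ (φ a))
    (hφ : Function.Injective φ) (z : Br q) (hz : p • z = 0) :
    ∃ y : (locLevels q).H2 (Rep.res (primeLocalToGlobal q) (mu p)),
      pushH2 (locLevels q) (Rep.res (primeLocalToGlobal q) (mu p)) (omRep q) φ hφρ y = z :=
  pushH2_surjective_torsion p (Rep.res (primeLocalToGlobal q) (mu p)) (omRep q) (om_isSmooth q)
    φ hφ hφρ (mem_range_of_injective q φ hφ) (om_divisible q p (Fact.out : p.Prime).ne_zero) z hz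

/-- the local Kummer map `H²(G_q, μ_p) → Br q` on level cohomology (source in `Profin15` form) -/
noncomputable def kummerLoc (ζ : Qbˣ) (hζ : ζ ^ p = 1) :
    (locLevels q).H2 (Rep.res (primeLocalToGlobal q) (mu p)) →+ Br q :=
  pushH2 (locLevels q) (Rep.res (primeLocalToGlobal q) (mu p)) (omRep q) (jq q ζ hζ)
    (jq_equivariant q ζ hζ)

/-- **(K1)** every `p`-torsion class of `Br q` is a Kummer class. -/
theorem kummerLoc_surjective_torsion {ζ : Qbˣ} (hζ : IsPrimitiveRoot ζ p) (z : Br q)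
    (hz : p • z = 0) : ∃ b, kummerLoc q ζ hζ.pow_eq_one b = z :=
  pushH2_surjective_torsion p (Rep.res (primeLocalToGlobal q) (mu p)) (omRep q) (om_isSmooth q)
    (jq q ζ hζ.pow_eq_one) (jq_injective q hζ) (jq_equivariant q ζ hζ.pow_eq_one)
    (mem_range_jq q hζ) (om_divisible q p (Fact.out : p.Prime).ne_zero) z hz

/-- the same with the source in `CDArith63` form -/
noncomputable def kummerLoc' (ζ : Qbˣ) (hζ : ζ ^ p = 1) :
    H2 (locLevels q) (Rep.res (primeLocalToGlobal q) (mu p)).ρ →+ Br q :=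
  mapH2 (locLevels q) (Rep.res (primeLocalToGlobal q) (mu p)).ρ (omRep q) (jq q ζ hζ)
    (jq_equivariant q ζ hζ)

theorem kummerLoc'_surjective_torsion {ζ : Qbˣ} (hζ : IsPrimitiveRoot ζ p) (z : Br q)
    (hz : p • z = 0) : ∃ b, kummerLoc' q ζ hζ.pow_eq_one b = z :=
  mapH2_surjective_torsion p (omRep q) (om_isSmooth q)
    (Rep.res (primeLocalToGlobal q) (mu p)).ρ
    (jq q ζ hζ.pow_eq_one) (jq_injective q hζ) (jq_equivariant q ζ hζ.pow_eq_one)
    (mem_range_jq q hζ) (om_divisible q p (Fact.out : p.Prime).ne_zero) z hz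

/-- **discharge of `hne`** of `Recip70.reciprocity_of_formation` from a `p`-torsion class of
`Br q` with nonzero invariant. -/
theorem hne_jq {ζ : Qbˣ} (hζ : IsPrimitiveRoot ζ p) {T : Type*} [AddCommGroup T]
    (inv : Br q →+ T) (h : ∃ z : Br q, p • z = 0 ∧ inv z ≠ 0) :
    ∃ y : (locLevels q).H2 (Rep.res (primeLocalToGlobal q) (mu p)),
      inv (pushH2 (locLevels q) (Rep.res (primeLocalToGlobal q) (mu p)) (omRep q)
        (jq q ζ hζ.pow_eq_one) (jq_equivariant q ζ hζ.pow_eq_one) y) ≠ 0 := by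
  obtain ⟨z, hz, hz0⟩ := h
  obtain ⟨b, hb⟩ := kummerLoc_surjective_torsion q hζ z hz
  exact ⟨b, by rw [← kummerLoc, hb]; exact hz0⟩

end Local

/-! ### (K1) + (K2): the reduction with `hne` stated on `Br q` -/

section Combined

variable {p : ℕ} [Fact p.Prime] {S : Finset Nat.Primes}

/-- `Recip70.reciprocity_of_formation` with `jq := jq q ζ`, `hjq := jq_equivariant` and the
hypothesis `hne` replaced by: **`Br(ℚ_q)[p]` contains a class with nonzero invariant**. -/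
theorem reciprocity_of_formation_torsion {ζ : Qbˣ} (hζ : IsPrimitiveRoot ζ p)
    {J C T : Type} [AddCommGroup J] [AddCommGroup C] [AddCommGroup T]
    (ρJ : Representation ℤ GQ J) (ρC : Representation ℤ GQ C)
    (j : (mu p) →+ J) (hjρ : ∀ (g : GQ) (a : mu p), j ((mu p).ρ g a) = ρJ g (j a))
    (π : J →+ C) (hπρ : ∀ g x, π (ρJ g x) = ρC g (π x)) (hπj : ∀ a, π (j a) = 0)
    (invC : H2 (globalLevels S) ρC →+ T)
    (EV : ∀ q : ↥S, H2 (globalLevels S) ρJ →+ Br q.1)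
    (inv : ∀ q : ↥S, Br q.1 →+ T)
    (hcompat : ∀ x : H2 (globalLevels S) ρJ,
      invC (mapH2 (globalLevels S) ρJ ρC π hπρ x) = ∑ q : ↥S, inv q (EV q x))
    (hEV : ∀ (q : ↥S) (x : (globalLevels S).H2 (mu p)),
      EV q (pushH2 (globalLevels S) (mu p) ρJ j hjρ x) =
        kummerLoc q.1 ζ hζ.pow_eq_one (Plug.locq p S q.1 (mu p) x))
    (jT : ZMod p →+ T) (hjT : Function.Injective jT)
    (hT : ∀ t : T, p • t = 0 → t ∈ Set.range jT)
    (hne : ∀ q : ↥S, ∃ z : Br q.1, p • z = 0 ∧ inv q z ≠ 0) :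
    Reciprocity p S :=
  reciprocity_of_formation ρJ ρC j hjρ π hπρ hπj invC
    (fun q => jq q.1 ζ hζ.pow_eq_one) (fun q => jq_equivariant q.1 ζ hζ.pow_eq_one)
    EV inv hcompat hEV jT hjT hT (fun q => hne_jq q.1 hζ (inv q) (hne q))

end Combined

end Fermat.Agent.S55.Recip70.Kummer
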