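/-
S55 / 51-P2-INST (helper70), part 2: the reduction of `Recip70/Reduce.lean` with the localisation
maps `EV q : H²(G_S; J) → Br q` DEFINED (restrict the level class to the full local group at `q`,
then push forward along a pointwise evaluation `evq q : J →+ (PadicAlgCl q)ˣ`), so that the
compatibility `hEV` of `reciprocityL_of_formation` is PROVED here.  The analytic inputs left are
`invC`/`hcompat` (35-LIM), `inv` (local class field theory) and `hne`.

No arithmetic in this file.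
-/
import Fermat.Agent.S55.Recip70.Reduce
import Fermat.Agent.S55.Profin15.Adapter63

set_option autoImplicit false
set_option linter.style.haveILetI false
set_option linter.unusedSectionVars false

open CategoryTheory groupCohomology ExtCitation
open Fermat.Agent.S55.Profin15 Fermat.Agent.S55.CDArith63
open Fermat.Agent.Lib.FrobeniusExists (Qb GQ)
open Fermat.Agent.S55.Contract34

namespace Fermat.Agent.S55.Recip70

/-- local instance: the primes of `Nat.Primes` are prime (same term as in the Prelude) -/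
local instance factPrimesEv (q : Nat.Primes) : Fact (q : ℕ).Prime := ⟨q.2⟩

/-- `omRep q` is the action underlying Mathlib's `Rep.ofAlgebraAutOnUnits` -/
theorem omRep_eq_ofAlgebraAutOnUnits (q : Nat.Primes) :
    (Rep.ofAlgebraAutOnUnits ℚ_[(q : ℕ)] (PadicAlgCl (q : ℕ))).ρ = omRep q := rfl

section Ev

variable (S : Finset Nat.Primes) {J : Type} [AddCommGroup J] (ρJ : Representation ℤ GQ J)

/-- **localisation at `q`**: restrict a level `2`-class of `J` to the full local Galois group at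
`q` and push it forward along an equivariant evaluation `evq : J →+ (PadicAlgCl q)ˣ` -/
noncomputable def EVq (q : Nat.Primes) (evq : J →+ Additive (PadicAlgCl (q : ℕ))ˣ)
    (hevq : ∀ (τ : primeLocalGaloisGroup q) (x : J),
      evq (ρJ (primeLocalToGlobal q τ) x) = omRep q τ (evq x)) :
    H2 (globalLevels S) ρJ →+ Br q :=
  (mapH2 (locLevels q) (ρJ.comp (primeLocalToGlobal q)) (omRep q) evq hevq).comp
    (Adapter63.pullH2 (isContinuous_pullLevels S (primeLocalToGlobal q)) ρJ)

theorem EVq_mk (q : Nat.Primes) (evq : J →+ Additive (PadicAlgCl (q : ℕ))ˣ)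
    (hevq : ∀ (τ : primeLocalGaloisGroup q) (x : J),
      evq (ρJ (primeLocalToGlobal q τ) x) = omRep q τ (evq x))
    (c : ↥(Z2 (globalLevels S) ρJ)) :
    EVq S ρJ q evq hevq (H2mk (globalLevels S) ρJ c) =
      H2mk (locLevels q) (omRep q)
        (mapZ2 (locLevels q) (ρJ.comp (primeLocalToGlobal q)) (omRep q) evq hevq
          (Adapter63.pullZ2 (isContinuous_pullLevels S (primeLocalToGlobal q)) ρJ c)) := rfl

end Ev

section Main

variable {p : ℕ} [Fact p.Prime] {S : Finset Nat.Primes}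

/-- **the compatibility `hEV` for the defined localisation** -/
theorem EVq_pushH2 {J : Type} [AddCommGroup J] (ρJ : Representation ℤ GQ J)
    (j : (mu p) →+ J) (hjρ : ∀ (g : GQ) (a : mu p), j ((mu p).ρ g a) = ρJ g (j a))
    (q : Nat.Primes)
    (jq : (Rep.res (primeLocalToGlobal q) (mu p)) →+ Additive (PadicAlgCl (q : ℕ))ˣ)
    (hjq : ∀ (τ : primeLocalGaloisGroup q) (a : Rep.res (primeLocalToGlobal q) (mu p)),
      jq ((Rep.res (primeLocalToGlobal q) (mu p)).ρ τ a) = omRep q τ (jq a))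
    (evq : J →+ Additive (PadicAlgCl (q : ℕ))ˣ)
    (hevq : ∀ (τ : primeLocalGaloisGroup q) (x : J),
      evq (ρJ (primeLocalToGlobal q τ) x) = omRep q τ (evq x))
    (hev : ∀ a : mu p, evq (j a) = jq a)
    (x : (globalLevels S).H2 (mu p)) :
    EVq S ρJ q evq hevq (pushH2 (globalLevels S) (mu p) ρJ j hjρ x) =
      pushH2 (locLevels q) (Rep.res (primeLocalToGlobal q) (mu p)) (omRep q) jq hjq
        (Plug.locq p S q (mu p) x) := by
  obtain ⟨c, rfl⟩ := Submodule.Quotient.mk_surjective _ x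
  change H2mk (locLevels q) (omRep q) _ = H2mk (locLevels q) (omRep q) _
  congr 1
  apply Subtype.ext
  funext y
  exact hev _

/-- **51-P2-INST, reduction with the localisations defined.**  Same as
`reciprocityL_of_formation`, with `EV q := EVq S ρJ q (evq q) (hevq q)`; the compatibility of the
localisation with the Kummer maps is the POINTWISE identity `hev`. -/
theorem reciprocityL_of_formation_ev
    {J C T : Type} [AddCommGroup J] [AddCommGroup C] [AddCommGroup T]
    (ρJ : Representation ℤ GQ J) (ρC : Representation ℤ GQ C)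
    (j : (mu p) →+ J) (hjρ : ∀ (g : GQ) (a : mu p), j ((mu p).ρ g a) = ρJ g (j a))
    (π : J →+ C) (hπρ : ∀ g x, π (ρJ g x) = ρC g (π x)) (hπj : ∀ a, π (j a) = 0)
    (invC : H2 (globalLevels S) ρC →+ T)
    (jq : ∀ q : ↥S, (Rep.res (primeLocalToGlobal q.1) (mu p)) →+ Additive (PadicAlgCl (q.1 : ℕ))ˣ)
    (hjq : ∀ (q : ↥S) (τ : primeLocalGaloisGroup q.1)
      (a : Rep.res (primeLocalToGlobal q.1) (mu p)),
      jq q ((Rep.res (primeLocalToGlobal q.1) (mu p)).ρ τ a) = omRep q.1 τ (jq q a))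
    (evq : ∀ q : ↥S, J →+ Additive (PadicAlgCl (q.1 : ℕ))ˣ)
    (hevq : ∀ (q : ↥S) (τ : primeLocalGaloisGroup q.1) (x : J),
      evq q (ρJ (primeLocalToGlobal q.1 τ) x) = omRep q.1 τ (evq q x))
    (hev : ∀ (q : ↥S) (a : mu p), evq q (j a) = jq q a)
    (inv : ∀ q : ↥S, Br q.1 →+ T)
    (hcompat : ∀ x : H2 (globalLevels S) ρJ,
      invC (mapH2 (globalLevels S) ρJ ρC π hπρ x) =
        ∑ q : ↥S, inv q (EVq S ρJ q.1 (evq q) (hevq q) x))
    (jT : ZMod p →+ T) (hjT : Function.Injective jT)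
    (hT : ∀ t : T, p • t = 0 → t ∈ Set.range jT)
    (hne : ∀ q : ↥S, ∃ y : (locLevels q.1).H2 (Rep.res (primeLocalToGlobal q.1) (mu p)),
      inv q (pushH2 (locLevels q.1) (Rep.res (primeLocalToGlobal q.1) (mu p)) (omRep q.1)
        (jq q) (hjq q) y) ≠ 0) :
    Plug.ReciprocityL p S :=
  reciprocityL_of_formation ρJ ρC j hjρ π hπρ hπj invC jq hjq
    (fun q => EVq S ρJ q.1 (evq q) (hevq q)) inv hcompat
    (fun q x => EVq_pushH2 ρJ j hjρ q.1 (jq q) (hjq q) (evq q) (hevq q) (hev q) x)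
    jT hjT hT hne

/-- the same in the literal `Contract34` form -/
theorem reciprocity_of_formation_ev
    {J C T : Type} [AddCommGroup J] [AddCommGroup C] [AddCommGroup T]
    (ρJ : Representation ℤ GQ J) (ρC : Representation ℤ GQ C)
    (j : (mu p) →+ J) (hjρ : ∀ (g : GQ) (a : mu p), j ((mu p).ρ g a) = ρJ g (j a))
    (π : J →+ C) (hπρ : ∀ g x, π (ρJ g x) = ρC g (π x)) (hπj : ∀ a, π (j a) = 0)
    (invC : H2 (globalLevels S) ρC →+ T)
    (jq : ∀ q : ↥S, (Rep.res (primeLocalToGlobal q.1) (mu p)) →+ Additive (PadicAlgCl (q.1 : ℕ))ˣ)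
    (hjq : ∀ (q : ↥S) (τ : primeLocalGaloisGroup q.1)
      (a : Rep.res (primeLocalToGlobal q.1) (mu p)),
      jq q ((Rep.res (primeLocalToGlobal q.1) (mu p)).ρ τ a) = omRep q.1 τ (jq q a))
    (evq : ∀ q : ↥S, J →+ Additive (PadicAlgCl (q.1 : ℕ))ˣ)
    (hevq : ∀ (q : ↥S) (τ : primeLocalGaloisGroup q.1) (x : J),
      evq q (ρJ (primeLocalToGlobal q.1 τ) x) = omRep q.1 τ (evq q x))
    (hev : ∀ (q : ↥S) (a : mu p), evq q (j a) = jq q a)
    (inv : ∀ q : ↥S, Br q.1 →+ T)
    (hcompat : ∀ x : H2 (globalLevels S) ρJ,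
      invC (mapH2 (globalLevels S) ρJ ρC π hπρ x) =
        ∑ q : ↥S, inv q (EVq S ρJ q.1 (evq q) (hevq q) x))
    (jT : ZMod p →+ T) (hjT : Function.Injective jT)
    (hT : ∀ t : T, p • t = 0 → t ∈ Set.range jT)
    (hne : ∀ q : ↥S, ∃ y : (locLevels q.1).H2 (Rep.res (primeLocalToGlobal q.1) (mu p)),
      inv q (pushH2 (locLevels q.1) (Rep.res (primeLocalToGlobal q.1) (mu p)) (omRep q.1)
        (jq q) (hjq q) y) ≠ 0) :
    Reciprocity p S :=
  (Plug.reciprocity_iff p S).2
    (reciprocityL_of_formation_ev ρJ ρC j hjρ π hπρ hπj invC jq hjq evq hevq hev inv hcompat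
      jT hjT hT hne)

/-! ### The local Kummer maps induced by the evaluations -/

/-- the local Kummer map `μ_p → (PadicAlgCl q)ˣ` induced by a global `j : μ_p → J` and an
evaluation `evq : J → (PadicAlgCl q)ˣ` (the carrier of `Rep.res r (mu p)` is that of `mu p`) -/
noncomputable def jqOfEv {J : Type} [AddCommGroup J] (j : (mu p) →+ J) (q : Nat.Primes)
    (evq : J →+ Additive (PadicAlgCl (q : ℕ))ˣ) :
    (Rep.res (primeLocalToGlobal q) (mu p)) →+ Additive (PadicAlgCl (q : ℕ))ˣ :=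
  evq.comp j

theorem jqOfEv_apply {J : Type} [AddCommGroup J] (j : (mu p) →+ J) (q : Nat.Primes)
    (evq : J →+ Additive (PadicAlgCl (q : ℕ))ˣ) (a : mu p) :
    jqOfEv j q evq a = evq (j a) := rfl

theorem jqOfEv_equivariant {J : Type} [AddCommGroup J] (ρJ : Representation ℤ GQ J)
    (j : (mu p) →+ J) (hjρ : ∀ (g : GQ) (a : mu p), j ((mu p).ρ g a) = ρJ g (j a))
    (q : Nat.Primes) (evq : J →+ Additive (PadicAlgCl (q : ℕ))ˣ)
    (hevq : ∀ (τ : primeLocalGaloisGroup q) (x : J),
      evq (ρJ (primeLocalToGlobal q τ) x) = omRep q τ (evq x))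
    (τ : primeLocalGaloisGroup q) (a : Rep.res (primeLocalToGlobal q) (mu p)) :
    jqOfEv j q evq ((Rep.res (primeLocalToGlobal q) (mu p)).ρ τ a) =
      omRep q τ (jqOfEv j q evq a) := by
  change evq (j ((mu p).ρ (primeLocalToGlobal q τ) a)) = omRep q τ (evq (j a))
  rw [hjρ, hevq]

/-- **51-P2-INST, reduction without any local Kummer datum**: the local Kummer maps are the
composites `evq q ∘ j`. -/
theorem reciprocityL_of_formation_ev'
    {J C T : Type} [AddCommGroup J] [AddCommGroup C] [AddCommGroup T]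
    (ρJ : Representation ℤ GQ J) (ρC : Representation ℤ GQ C)
    (j : (mu p) →+ J) (hjρ : ∀ (g : GQ) (a : mu p), j ((mu p).ρ g a) = ρJ g (j a))
    (π : J →+ C) (hπρ : ∀ g x, π (ρJ g x) = ρC g (π x)) (hπj : ∀ a, π (j a) = 0)
    (invC : H2 (globalLevels S) ρC →+ T)
    (evq : ∀ q : ↥S, J →+ Additive (PadicAlgCl (q.1 : ℕ))ˣ)
    (hevq : ∀ (q : ↥S) (τ : primeLocalGaloisGroup q.1) (x : J),
      evq q (ρJ (primeLocalToGlobal q.1 τ) x) = omRep q.1 τ (evq q x))
    (inv : ∀ q : ↥S, Br q.1 →+ T)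
    (hcompat : ∀ x : H2 (globalLevels S) ρJ,
      invC (mapH2 (globalLevels S) ρJ ρC π hπρ x) =
        ∑ q : ↥S, inv q (EVq S ρJ q.1 (evq q) (hevq q) x))
    (jT : ZMod p →+ T) (hjT : Function.Injective jT)
    (hT : ∀ t : T, p • t = 0 → t ∈ Set.range jT)
    (hne : ∀ q : ↥S, ∃ y : (locLevels q.1).H2 (Rep.res (primeLocalToGlobal q.1) (mu p)),
      inv q (pushH2 (locLevels q.1) (Rep.res (primeLocalToGlobal q.1) (mu p)) (omRep q.1)
        (jqOfEv j q.1 (evq q)) (jqOfEv_equivariant ρJ j hjρ q.1 (evq q) (hevq q)) y) ≠ 0) :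
    Plug.ReciprocityL p S :=
  reciprocityL_of_formation_ev ρJ ρC j hjρ π hπρ hπj invC
    (fun q => jqOfEv j q.1 (evq q))
    (fun q => jqOfEv_equivariant ρJ j hjρ q.1 (evq q) (hevq q))
    evq hevq (fun _ _ => rfl) inv hcompat jT hjT hT hne

/-! ### `hne` from a `p`-torsion Brauer class of nonzero invariant -/

/-- `pushH2` does not depend on the proof of equivariance, and is congruent in the map -/
theorem pushH2_congr {k G : Type} [CommRing k] [Group G] (𝒰 : LevelStr G) (M : Rep.{0} k G)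
    {k' : Type*} [CommRing k'] {B : Type*} [AddCommGroup B] [Module k' B]
    (ρB : Representation k' G B) {φ ψ : M →+ B} (h : φ = ψ)
    (hφ : ∀ g a, φ (M.ρ g a) = ρB g (φ a)) (hψ : ∀ g a, ψ (M.ρ g a) = ρB g (ψ a)) :
    pushH2 𝒰 M ρB φ hφ = pushH2 𝒰 M ρB ψ hψ := by
  subst h
  rfl

/-- **`hne` from local class field theory + local Kummer theory**: if `Br q` has a `p`-torsion
class of nonzero invariant (unramified class of degree `p`) and every `p`-torsion class of `Br q`
comes from `H²(G_q; μ_p)` (Kummer sequence + Hilbert 90), then `inv q` is nonzero on the image of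
`H²(G_q; μ_p)`. -/
theorem hne_of_torsion {T : Type} [AddCommGroup T] (q : Nat.Primes)
    (jq : (Rep.res (primeLocalToGlobal q) (mu p)) →+ Additive (PadicAlgCl (q : ℕ))ˣ)
    (hjq : ∀ (τ : primeLocalGaloisGroup q) (a : Rep.res (primeLocalToGlobal q) (mu p)),
      jq ((Rep.res (primeLocalToGlobal q) (mu p)).ρ τ a) = omRep q τ (jq a))
    (inv : Br q →+ T)
    (hsurj : ∀ z : Br q, p • z = 0 →
      ∃ y : (locLevels q).H2 (Rep.res (primeLocalToGlobal q) (mu p)),
        pushH2 (locLevels q) (Rep.res (primeLocalToGlobal q) (mu p)) (omRep q) jq hjq y = z)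
    (hz : ∃ z : Br q, p • z = 0 ∧ inv z ≠ 0) :
    ∃ y : (locLevels q).H2 (Rep.res (primeLocalToGlobal q) (mu p)),
      inv (pushH2 (locLevels q) (Rep.res (primeLocalToGlobal q) (mu p)) (omRep q) jq hjq y) ≠ 0 := by
  obtain ⟨z, hz0, hz1⟩ := hz
  obtain ⟨y, rfl⟩ := hsurj z hz0
  exact ⟨y, hz1⟩

end Main

end Fermat.Agent.S55.Recip70
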