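/-
S55 / P3P4 Route I (helper70), part 3: the POINTWISE data of `Recip70.reciprocityL_of_formation_ev`
for the concrete limit modules of helper94 (`GlobalMod94.JS`): `J := JSp S = ∏_{q ∈ S} J_{S,q}`,
`C := CSp S = J_S / E_S`, `j := ιES ∘ jmu` (Kummer), `π := πCS`, and the evaluations
`evJ q : J_S → (PadicAlgCl q)ˣ` (value at `1 ∈ G_ℚ` of the `q`-component).  After this file the plug
`Contract34.Reciprocity p S` is reduced to: `invC` on level `H²(G_S; C_S)`, the local invariants
`inv q` on `Br q`, their compatibility `hcompat`, and `hne`.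
-/
import Fermat.Agent.S55.Recip70.ReduceEv
import Fermat.Agent.S55.GlobalMod94.JS
import Fermat.Agent.S55.ESKummer20
import Fermat.Agent.S55.P1Lim62.Bridge
import Fermat.Agent.S55.QZ33

set_option autoImplicit false
set_option linter.style.haveILetI false
set_option linter.unusedSectionVars false

open CategoryTheory groupCohomology ExtCitation
open Fermat.Agent.S55.Profin15 Fermat.Agent.S55.CDArith63
open Fermat.Agent.Lib.FrobeniusExists (Qb GQ)
open Fermat.Agent.S55.Contract34
open Fermat.Agent.S55.GlobalMod94.JS Fermat.Agent.S55.CS79.Smooth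
open Fermat.Agent.S55.P1Lim62.Bridge (intRho intRho_apply)
open Fermat.Agent.S55.ESRep20 Fermat.Agent.S55.ESKummer20

namespace Fermat.Agent.S55.Recip70.Inst

variable (S : Finset Nat.Primes)

/-! ### carriers, opaque to instance search

`JSp S` and `CSp S` are reducible all the way down to a `Π`-type of subtypes, on which instance
search does not find the `Rep` instances; we re-type the carriers. -/

/-- the carrier of `J_S` -/
def JC : Type := ↑(JSp S)

/-- the carrier of `C_S` -/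
def CC : Type := ↑(CSp S)

noncomputable instance instAddCommGroupJC : AddCommGroup (JC S) := (JSp S).hV1

noncomputable instance instAddCommGroupCC : AddCommGroup (CC S) := (CSp S).hV1

/-- the action on `J_S` -/
noncomputable def ρJ : Representation ℤ GQ (JC S) := intRho (JSp S)

/-- the action on `C_S` -/
noncomputable def ρC : Representation ℤ GQ (CC S) := intRho (CSp S)

theorem ρJ_apply (g : GQ) (x : JC S) : ρJ S g x = (JSp S).ρ g x := rfl

theorem ρC_apply (g : GQ) (x : CC S) : ρC S g x = (CSp S).ρ g x := rfl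

/-! ### the maps -/

/-- `E_S → J_S`, additive, with values in the re-typed carrier -/
noncomputable def ιJ : (ESRep S) →+ JC S :=
  Fermat.Agent.S55.P1Lim62.Bridge.homAdd (ESRep S) (ιES S)

theorem ιJ_apply (e : ESRep S) : ιJ S e = (ιES S).hom e := rfl

/-- `J_S → C_S`, additive, on the re-typed carriers -/
noncomputable def πJ : JC S →+ CC S :=
  Fermat.Agent.S55.P1Lim62.Bridge.homAdd (JSp S) (πCS S)

theorem πJ_apply (x : JC S) : πJ S x = (πCS S).hom x := rfl

theorem ιJ_equivariant (g : GQ) (e : ESRep S) :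
    ιJ S ((ESRep S).ρ g e) = ρJ S g (ιJ S e) :=
  Rep.hom_comm_apply (ιES S) g e

theorem πJ_equivariant (g : GQ) (x : JC S) : πJ S (ρJ S g x) = ρC S g (πJ S x) :=
  Rep.hom_comm_apply (πCS S) g x

theorem πJ_ιJ (hS : S.Nonempty) (e : ESRep S) : πJ S (ιJ S e) = 0 :=
  (shortExact_ES_JS_CS S hS).comp_eq_zero e

/-- evaluation of the `q`-component of an `S`-idele at `1 ∈ G_ℚ` -/
noncomputable def evJ (q : ↥S) : JC S →+ Additive (PadicAlgCl ((q : Nat.Primes) : ℕ))ˣ where
  toFun x := (smoothIncl (globalLevels S) _ ((show ↑(JSp S) from x) q)).1 1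
  map_zero' := rfl
  map_add' _ _ := rfl

theorem evJ_apply (q : ↥S) (x : JC S) :
    evJ S q x = (smoothIncl (globalLevels S) _ ((show ↑(JSp S) from x) q)).1 1 := rfl

/-- the evaluation is equivariant along `primeLocalToGlobal q` -/
theorem evJ_equivariant (q : ↥S) (τ : primeLocalGaloisGroup (q : Nat.Primes)) (x : JC S) :
    evJ S q (ρJ S (primeLocalToGlobal (q : Nat.Primes) τ) x) =
      omRep (q : Nat.Primes) τ (evJ S q x) := by
  have h := (smoothIncl (globalLevels S) _ ((show ↑(JSp S) from x) q)).2 τ 1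
  rw [mul_one] at h
  have h2 : evJ S q (ρJ S (primeLocalToGlobal (q : Nat.Primes) τ) x) =
      (smoothIncl (globalLevels S) _ ((show ↑(JSp S) from x) q)).1
        (1 * primeLocalToGlobal (q : Nat.Primes) τ) := rfl
  rw [h2, one_mul]
  exact h

/-! ### the Kummer maps -/

section Kummer

variable {S} {p : ℕ} [Fact p.Prime] (hpS : pPrime p ∈ S) (ζ : Qbˣ) (hζ : ζ ^ p = 1)

/-- `j : μ_p → J_S`, `a ↦ diag (ζ ^ a)` -/
noncomputable def jJ : (mu p) →+ JC S := (ιJ S).comp (jmu hpS ζ hζ)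

theorem jJ_apply (a : mu p) : jJ hpS ζ hζ a = ιJ S (jmu hpS ζ hζ a) := rfl

theorem jJ_equivariant (g : GQ) (a : mu p) :
    jJ hpS ζ hζ ((mu p).ρ g a) = ρJ S g (jJ hpS ζ hζ a) := by
  rw [jJ_apply, jJ_apply, ← ιJ_equivariant]
  exact congrArg (ιJ S) (jmu_equivariant hpS ζ hζ g a)

theorem πJ_jJ (a : mu p) : πJ S (jJ hpS ζ hζ a) = 0 :=
  πJ_ιJ S ⟨_, hpS⟩ _

/-- the image of `ζ` in `(PadicAlgCl q)ˣ` -/
noncomputable def zetaLoc (q : ℕ) [Fact q.Prime] : (PadicAlgCl q)ˣ :=
  Units.map ((padicEmbedding q : Qb →ₐ[ℚ] PadicAlgCl q) : Qb →* PadicAlgCl q) ζ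

theorem evJ_jJ_natCast (q : ↥S) (n : ℕ) :
    evJ S q (jJ hpS ζ hζ (show mu p from (n : ZMod p))) =
      Additive.ofMul (zetaLoc ζ ((q : Nat.Primes) : ℕ) ^ n) := by
  have h1 : jJ hpS ζ hζ (show mu p from (n : ZMod p)) =
      ιJ S ((incl (hH := rootsOfUnity_galStable p) (hH' := ES_galStable (S := S))
        (rootsOfUnity_le_ES' hpS)).hom (muHom ζ hζ (n : ZMod p))) := rfl
  rw [h1, muHom_natCast]
  apply Additive.toMul.injective
  apply Units.ext
  show padicEmbedding ((q : Nat.Primes) : ℕ) ((1 : GQ) (((ζ ^ n : Qbˣ)) : Qb)) =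
    ((zetaLoc ζ ((q : Nat.Primes) : ℕ) ^ n : (PadicAlgCl ((q : Nat.Primes) : ℕ))ˣ) :
      PadicAlgCl ((q : Nat.Primes) : ℕ))
  simp [zetaLoc]

/-- **the local Kummer map induced by `j` and the evaluation at `q`**: `a ↦ ζ_q ^ a` -/
theorem evJ_jJ (q : ↥S) (a : mu p) :
    evJ S q (jJ hpS ζ hζ a) =
      Additive.ofMul (zetaLoc ζ ((q : Nat.Primes) : ℕ) ^ (show ZMod p from a).val) := by
  haveI : NeZero p := ⟨(Fact.out : p.Prime).ne_zero⟩
  have h := evJ_jJ_natCast hpS ζ hζ q (show ZMod p from a).val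
  rwa [ZMod.natCast_zmod_val] at h

end Kummer

/-! ### level cohomology: from the `Rep` vocabulary to the re-typed carriers -/

section Coh

/-- the identity of a `Rep`, as an additive map (generic, so that no instance is synthesised on
the concrete carriers) -/
def idAdd (A : Rep.{0} ℤ GQ) : A →+ A := AddMonoidHom.id A

/-- `H²(G_S; J_S)`: from `Profin15` (on the `Rep`) to `CDArith63` (on the re-typed carrier);
identity on cocycles -/
noncomputable def toCDJ : (globalLevels S).H2 (JSp S) →+ H2 (globalLevels S) (ρJ S) :=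
  pushH2 (globalLevels S) (JSp S) (ρJ S) (idAdd (JSp S)) (fun _ _ => rfl)

/-- `H²(G_S; C_S)`: from `Profin15` to `CDArith63`; identity on cocycles -/
noncomputable def toCDC : (globalLevels S).H2 (CSp S) →+ H2 (globalLevels S) (ρC S) :=
  pushH2 (globalLevels S) (CSp S) (ρC S) (idAdd (CSp S)) (fun _ _ => rfl)

theorem toCDJ_surjective : Function.Surjective (toCDJ S) := by
  intro x
  obtain ⟨c, rfl⟩ := H2mk_surjective x
  exact ⟨(globalLevels S).H2π (JSp S)
    ⟨c.1, (mem_Z2_iff_mem_Z₂ (globalLevels S) (JSp S) c.1).1 c.2⟩, rfl⟩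

/-- **localisation at `q`** on `H²(G_S; J_S)` (`Profin15` vocabulary): restrict to the full local
group at `q`, evaluate the `q`-component at `1` -/
noncomputable def EVJ (q : ↥S) : (globalLevels S).H2 (JSp S) →+ Br (q : Nat.Primes) :=
  (EVq S (ρJ S) (q : Nat.Primes) (evJ S q) (evJ_equivariant S q)).comp (toCDJ S)

/-- the cocycle of `G_q` representing the localisation of the class of a level cocycle `c` of
`J_S`: `(τ, τ') ↦ (c (r_q τ, r_q τ'))_q (1)` -/
theorem EVJ_H2π (q : ↥S) (c : ↥((globalLevels S).Z₂ (JSp S))) :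
    ∃ h : (fun τ : primeLocalGaloisGroup (q : Nat.Primes) × primeLocalGaloisGroup (q : Nat.Primes) =>
        evJ S q (c.1 (primeLocalToGlobal (q : Nat.Primes) τ.1,
          primeLocalToGlobal (q : Nat.Primes) τ.2))) ∈
          Z2 (locLevels (q : Nat.Primes)) (omRep (q : Nat.Primes)),
      EVJ S q ((globalLevels S).H2π (JSp S) c) =
        H2mk (locLevels (q : Nat.Primes)) (omRep (q : Nat.Primes)) ⟨_, h⟩ :=
  ⟨(mapZ2 (locLevels (q : Nat.Primes)) ((ρJ S).comp (primeLocalToGlobal (q : Nat.Primes)))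
      (omRep (q : Nat.Primes)) (evJ S q) (evJ_equivariant S q)
      (Fermat.Agent.S55.Profin15.Adapter63.pullZ2
        (isContinuous_pullLevels S (primeLocalToGlobal (q : Nat.Primes))) (ρJ S)
        (pushZ2 (globalLevels S) (JSp S) (ρJ S) (idAdd (JSp S)) (fun _ _ => rfl) c))).2, rfl⟩

end Coh

/-! ### the plug -/

section Plug

variable {S} {p : ℕ} [Fact p.Prime] (hpS : pPrime p ∈ S) (ζ : Qbˣ) (hζ : ζ ^ p = 1)

/-- the local Kummer map at `q ∈ S`: `a ↦ ζ_q ^ a`, `μ_p → (PadicAlgCl q)ˣ` -/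
noncomputable def jqJ (q : ↥S) :
    (Rep.res (primeLocalToGlobal (q : Nat.Primes)) (mu p)) →+
      Additive (PadicAlgCl ((q : Nat.Primes) : ℕ))ˣ :=
  jqOfEv (jJ hpS ζ hζ) (q : Nat.Primes) (evJ S q)

theorem jqJ_apply (q : ↥S) (a : mu p) :
    jqJ hpS ζ hζ q a =
      Additive.ofMul (zetaLoc ζ ((q : Nat.Primes) : ℕ) ^ (show ZMod p from a).val) :=
  evJ_jJ hpS ζ hζ q a

theorem jqJ_equivariant (q : ↥S) (τ : primeLocalGaloisGroup (q : Nat.Primes))
    (a : Rep.res (primeLocalToGlobal (q : Nat.Primes)) (mu p)) :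
    jqJ hpS ζ hζ q ((Rep.res (primeLocalToGlobal (q : Nat.Primes)) (mu p)).ρ τ a) =
      omRep (q : Nat.Primes) τ (jqJ hpS ζ hζ q a) :=
  jqOfEv_equivariant (ρJ S) (jJ hpS ζ hζ) (jJ_equivariant hpS ζ hζ) (q : Nat.Primes) (evJ S q)
    (evJ_equivariant S q) τ a

/-- **P3P4 (route I) for the concrete limit modules `J_S`, `C_S = J_S / E_S`.**  The plug
`Profin15.Plug.ReciprocityL p S` from: an additive functional `invC` on level `H²(G_S; C_S)`, local
invariants `inv q` on `Br q` (`q ∈ S`) with `invC ∘ π_* = ∑_q inv q ∘ EVJ q`, and nonvanishing of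
`inv q` on the Kummer image of `H²(G_q; μ_p)`. -/
theorem reciprocityL_of_JS {T : Type} [AddCommGroup T]
    (invC : (globalLevels S).H2 (CSp S) →+ T)
    (inv : ∀ q : ↥S, Br (q : Nat.Primes) →+ T)
    (hcompat : ∀ x : (globalLevels S).H2 (JSp S),
      invC ((globalLevels S).H2map (πCS S).hom.toLinearMap
        (LevelStr.isEquivariant_hom (πCS S)) x) = ∑ q : ↥S, inv q (EVJ S q x))
    (jT : ZMod p →+ T) (hjT : Function.Injective jT)
    (hT : ∀ t : T, p • t = 0 → t ∈ Set.range jT)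
    (hne : ∀ q : ↥S, ∃ y : (locLevels (q : Nat.Primes)).H2
        (Rep.res (primeLocalToGlobal (q : Nat.Primes)) (mu p)),
      inv q (pushH2 (locLevels (q : Nat.Primes))
        (Rep.res (primeLocalToGlobal (q : Nat.Primes)) (mu p)) (omRep (q : Nat.Primes))
        (jqJ hpS ζ hζ q) (jqJ_equivariant hpS ζ hζ q) y) ≠ 0) :
    Plug.ReciprocityL p S := by
  refine reciprocityL_of_formation_ev' (ρJ S) (ρC S) (jJ hpS ζ hζ) (jJ_equivariant hpS ζ hζ)
    (πJ S) (πJ_equivariant S) (πJ_jJ hpS ζ hζ)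
    (invC.comp (Fermat.Agent.S55.P1Lim62.Bridge.fromCD (globalLevels S) (CSp S)))
    (fun q => evJ S q) (fun q => evJ_equivariant S q) inv ?_ jT hjT hT hne
  intro x
  obtain ⟨x₀, rfl⟩ := toCDJ_surjective S x
  have h := hcompat x₀
  obtain ⟨c, rfl⟩ := Submodule.Quotient.mk_surjective _ x₀
  exact h

/-- the same in the literal `Contract34` form -/
theorem reciprocity_of_JS {T : Type} [AddCommGroup T]
    (invC : (globalLevels S).H2 (CSp S) →+ T)
    (inv : ∀ q : ↥S, Br (q : Nat.Primes) →+ T)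
    (hcompat : ∀ x : (globalLevels S).H2 (JSp S),
      invC ((globalLevels S).H2map (πCS S).hom.toLinearMap
        (LevelStr.isEquivariant_hom (πCS S)) x) = ∑ q : ↥S, inv q (EVJ S q x))
    (jT : ZMod p →+ T) (hjT : Function.Injective jT)
    (hT : ∀ t : T, p • t = 0 → t ∈ Set.range jT)
    (hne : ∀ q : ↥S, ∃ y : (locLevels (q : Nat.Primes)).H2
        (Rep.res (primeLocalToGlobal (q : Nat.Primes)) (mu p)),
      inv q (pushH2 (locLevels (q : Nat.Primes))
        (Rep.res (primeLocalToGlobal (q : Nat.Primes)) (mu p)) (omRep (q : Nat.Primes))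
        (jqJ hpS ζ hζ q) (jqJ_equivariant hpS ζ hζ q) y) ≠ 0) :
    Reciprocity p S :=
  (Plug.reciprocity_iff p S).2
    (reciprocityL_of_JS hpS ζ hζ invC inv hcompat jT hjT hT hne)

/-- **P3P4 (route I), final form with `T := QZ33.QZ = ℚ/ℤ`**, `hne` split into its two sources:
`hz` (local class field theory: a `p`-torsion class of `Br q` of nonzero invariant) and `hK1`
(local Kummer theory: `Br q [p]` is the Kummer image of `H²(G_q; μ_p)`). -/
theorem reciprocity_of_JS_QZ
    (invC : (globalLevels S).H2 (CSp S) →+ QZ33.QZ)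
    (inv : ∀ q : ↥S, Br (q : Nat.Primes) →+ QZ33.QZ)
    (hcompat : ∀ x : (globalLevels S).H2 (JSp S),
      invC ((globalLevels S).H2map (πCS S).hom.toLinearMap
        (LevelStr.isEquivariant_hom (πCS S)) x) = ∑ q : ↥S, inv q (EVJ S q x))
    (hz : ∀ q : ↥S, ∃ z : Br (q : Nat.Primes), p • z = 0 ∧ inv q z ≠ 0)
    (hK1 : ∀ (q : ↥S) (z : Br (q : Nat.Primes)), p • z = 0 →
      ∃ y : (locLevels (q : Nat.Primes)).H2
          (Rep.res (primeLocalToGlobal (q : Nat.Primes)) (mu p)),
        pushH2 (locLevels (q : Nat.Primes))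
          (Rep.res (primeLocalToGlobal (q : Nat.Primes)) (mu p)) (omRep (q : Nat.Primes))
          (jqJ hpS ζ hζ q) (jqJ_equivariant hpS ζ hζ q) y = z) :
    Reciprocity p S :=
  reciprocity_of_JS hpS ζ hζ invC inv hcompat (QZ33.QZ.jT p)
    (QZ33.QZ.jT_injective (Fact.out : p.Prime).ne_zero)
    (fun _ ht => QZ33.QZ.mem_range_jT (Fact.out : p.Prime).ne_zero ht)
    (fun q => hne_of_torsion (q : Nat.Primes) (jqJ hpS ζ hζ q) (jqJ_equivariant hpS ζ hζ q)
      (inv q) (hK1 q) (hz q))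

end Plug

end Fermat.Agent.S55.Recip70.Inst
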